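import Fermat.Agent.LT.T7.H563.ConvAvgQSpec
import Fermat.Agent.LT.T7.H409.RegOrb
import Fermat.Agent.LT.T7.H644.ProdBook
import Fermat.Agent.LT.T7.H333.SphInv

/-!
# Row LT, tower T7, leaf T7.L2Q.1.H2b.4.G2.6 `PQ563.RegOpQC563` (helper575, registry row 3056)

OFF-MAIN.  No hole, nothing assumed.

    regOpQC575 (F) : PQ563.RegOpQC563 F

VERBATIM vs `T7/H563/ConvAvgQSpec.lean` (helper563, sha256 e7c4d784).  Port over `ℚ` of the
proof of the twin `P51.RegOpC51` (helper448, `T7/H448/RegOp.lean`).  The components of a pure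
tensor of the shape `LocOpQ563` are regular at the places of `T` and at infinity:

* bad places (`v ∈ T₀`, `v ≠ u`): the clauses `inv_up`, `inv_down` of the `LocHypQb801`
  contained in `LocBQ801` (double coset functions upstairs, the partner downstairs);
* the place `u` and the two places over it: `regLoc51` of the Iwahori function and the Iwahori
  function are bi-invariant under the Iwahori subgroup with finite support (helper409,
  `isIwReg_regLoc409`, `isIwReg_iwFn409`), and `U(n) ⊆ I` for `n ≥ 1` (`one_le_level409`);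
* outside the level: the levels vanish (`levelAtC644`, helper644) and spherical functions are
  bi-`GL₂(𝒪)`-invariant with finite support (`sphInvC333`, helper333);
* at infinity: the clause `ArchOkQ801` of `LocBQ801` (test functions).
-/

set_option autoImplicit false

open AutomorphicForm IsDedekindDomain NumberField MeasureTheory
open scoped ComplexConjugate

noncomputable section

namespace Fermat.Agent.LT.T7.H575

open Fermat.Agent.LT.H556 Fermat.Agent.LT.H556.A0 Fermat.Agent.LT.T7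
open Fermat.Agent.LT.T7.H305 Fermat.Agent.LT.T7.H893 Fermat.Agent.LT.T7.P51
open Fermat.Agent.LT.T7.H409 Fermat.Agent.LT.T7.L2Q Fermat.Agent.LT.T7.H962
open Fermat.Agent.LT.T7.H732 Fermat.Agent.LT.T7.MQ298 Fermat.Agent.LT.T7.CQ801
open Fermat.Agent.LT.T7.PQ563

variable (F : Type) [Field F] [NumberField F]

/-- **LEAF PS.G2.6 = REG-OP over `ℚ` of helper563's cut of `ProdMtQC801`: PROVED.** -/
theorem regOpQC575 : Fermat.Agent.LT.T7.PQ563.RegOpQC563 F := by
  classical
  intro Φ B g 𝔫 μr μc T₀ n n₀ m hctx H' z' H z hsys c k j T φ₀ Φ' f₀ F0 F1 hT hop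
  obtain ⟨φ₂, f₂, hB, hbad, hfu, hφ0, hφ1, hout⟩ := hop
  obtain ⟨⟨Φd, F0d, F1d, hLH⟩, -, -, -, hsph, harch⟩ := hB
  obtain ⟨hΦ', hF0, hF1, -⟩ := harch
  have hfu' : f₀ B.u = regLoc51 B.u z H k j iwFn893 := hfu
  have hφ0' : φ₀ (B.o 0) = regLoc51 (B.o 0) z' H' k j iwFn893 := hφ0
  have hφ1' : φ₀ (B.o 1) = iwFn893 := hφ1
  have hlev : IsLevelAt305 T₀ n m :=
    Fermat.Agent.LT.T7.H644.levelAtC644 ℚ F 𝔫 T₀ n m hctx.mem_T₀ hctx.lev_m hctx.lev_n
  have hup : upI (K' := F) 𝔫 ≠ ⊥ := by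
    show Ideal.map (algebraMap (𝓞 ℚ) (𝓞 F)) 𝔫 ≠ ⊥
    intro h0
    exact hsys.level_ne ((Ideal.map_eq_bot_iff_of_injective
      (FaithfulSMul.algebraMap_injective (𝓞 ℚ) (𝓞 F))).mp h0)
  refine ⟨fun v hv => ?_, fun w => ⟨(hΦ' w).cont, (hΦ' w).supp⟩,
    ⟨hF0.cont, hF0.supp⟩, ⟨hF1.cont, hF1.supp⟩⟩
  by_cases hv0 : v ∈ T₀
  · by_cases hvu : v = B.u
    · -- the place `u` and the two places over it
      subst hvu
      refine ⟨fun w hw => ?_, ?_⟩
      · obtain ⟨i, hi, rfl⟩ := hctx.base.orbit_all w hw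
        have hn1 : 1 ≤ n (B.o i) :=
          one_le_level409 hup hctx.lev_n
            ((hsys.mem_S'_g (B.o i)).mp (hctx.base.orbit_level i))
        have hreg : IsIwReg409 (B.o i) (n (B.o i)) (φ₀ (B.o i)) := by
          interval_cases i
          · rw [hφ0']
            exact isIwReg_regLoc409 _ hsys.sys' hsys.unif' k j
          · rw [hφ1']
            exact isIwReg_iwFn409 _
        exact ⟨isBiInv_of_isIwReg409 hn1 hreg, hreg.2.2⟩
      · have hm1 : 1 ≤ m B.u := one_le_level409 hsys.level_ne hctx.lev_m hsys.u_level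
        have hreg : IsIwReg409 B.u (m B.u) (f₀ B.u) := by
          rw [hfu']
          exact isIwReg_regLoc409 _ hsys.sys hsys.unif k j
        exact ⟨isBiInv_of_isIwReg409 hm1 hreg, hreg.2.2⟩
    · -- the bad places
      obtain ⟨hf, hφ⟩ := hbad v hv0 hvu
      refine ⟨fun w hw => ?_, ?_⟩
      · rw [hφ w hw]
        exact hLH.inv_up v (Finset.mem_erase.2 ⟨hvu, hv0⟩) w hw
      · rw [hf]
        exact hLH.inv_down v (Finset.mem_erase.2 ⟨hvu, hv0⟩)
  · -- outside the level
    obtain ⟨hf, hφ⟩ := hout v hv hv0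
    obtain ⟨A, Av, hAv, hA, -, -⟩ := hsph v hv hv0
    refine ⟨fun w hw => ?_, ?_⟩
    · rw [hφ w hw, hlev.2 v w hv0 hw]
      exact Fermat.Agent.LT.T7.H333.sphInvC333 F w (φ₂ w) (A w) (hA w hw)
    · rw [hf, hlev.1 v hv0]
      exact Fermat.Agent.LT.T7.H333.sphInvC333 ℚ v (f₂ v) Av hAv

end Fermat.Agent.LT.T7.H575

end
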