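import Mathlib
import Fermat.Agent.LT.T7.H973.PreBQSpec
import Fermat.Agent.LT.H129.Local
import Fermat.Agent.LT.T7.H543.HGroup

/-!
# Row LT, tower T7, leaf T7.L2Q.1.H2a.B.0.U4 `PBQ973.SwapUpOpQC973` (registry row 3135, helper575)

OFF-MAIN.  `swapUpOpQC_of575 (F) : PBQ973.SwapUpSumQC973 F → PBQ973.SwapUpOpQC973 F`, VERBATIM vs
`T7/H973/PreBQSpec.lean` (helper973@a2ff41d85, sha256 200eee4e), CONDITIONAL on the key identity
`SwapUpSumQC973` only (as allowed by the registry row).  PORT over `ℚ` of the cubic twin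
`swapUpOpC939` of helper939 (registry row 3068; the abstract part is copied under new names).

Proof.  `φ° = ∑_{h ∈ HU} Φ₁ [] (· h⁻¹)` (the key identity under the integral over the compact
parameter space; the members are continuous), `R(Φ₁ [] (· h⁻¹)) ψ = R(Φ₁ []) (ψ(· h))` (right
invariance of the Haar measure, `IsFrame.right_inv`), `ψ(· h) = ψ` for `h ∈ HU`: `h = i u` with
`i` = the part of `h` along the orbit (Iwahori, `IsWFn.iw`) and `u = i⁻¹ h ∈ U(𝔑₀)`
(`IsCuspFn.aut.level_inv`).  So `c₂ = card HU · c₁`, `≠ 0` on the class by `up1_ne`.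
-/

set_option autoImplicit false

open AutomorphicForm IsDedekindDomain NumberField MeasureTheory
open scoped ComplexConjugate

noncomputable section

namespace Fermat.Agent.LT.T7.H575

open Fermat.Agent.LT.H556 Fermat.Agent.LT.H556.A0 Fermat.Agent.LT.T7 Fermat.Agent.LT.T7.H305
  Fermat.Agent.LT.T7.L2Q Fermat.Agent.LT.T7.H893 Fermat.Agent.LT.T7.H962
  Fermat.Agent.LT.T7.H732 Fermat.Agent.LT.T7.MQ298 Fermat.Agent.LT.T7.CQ801
open Fermat.Agent.LT.H129

attribute [local instance] Fermat.Agent.LT.T5.instMeasurableSpaceG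

/-! ## 1. The part of an element at a finite set of places -/

section Part

/-- The product over a list without duplicates of a family with ONE non-trivial member. -/
theorem list_prod_single575 {M α : Type*} [Monoid M] (l : List α) (hl : l.Nodup) (v : α)
    (f : α → M) (hne : ∀ w, w ≠ v → f w = 1) :
    (v ∈ l → (l.map f).prod = f v) ∧ (v ∉ l → (l.map f).prod = 1) := by
  induction l with
  | nil =>
    refine ⟨fun h => absurd h (List.not_mem_nil), fun _ => ?_⟩
    rw [List.map_nil, List.prod_nil]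
  | cons w l ih =>
    rw [List.nodup_cons] at hl
    obtain ⟨ih1, ih2⟩ := ih hl.2
    rw [List.map_cons, List.prod_cons]
    constructor
    · intro hv
      rw [List.mem_cons] at hv
      rcases hv with hv | hv
      · subst hv
        rw [ih2 hl.1, mul_one]
      · have hwv : w ≠ v := fun h => hl.1 (h ▸ hv)
        rw [hne w hwv, one_mul, ih1 hv]
    · intro hv
      rw [List.mem_cons, not_or] at hv
      rw [hne w (fun h => hv.1 h.symm), one_mul, ih2 hv.2]

variable {K : Type} [Field K] [NumberField K]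

/-- The part of `h` at the places of the finite set `O` (`1` at the other places). -/
def partAt575 (O : Finset (HeightOneSpectrum (𝓞 K))) (h : G K) : G K :=
  (O.toList.map fun w => locFin129 w (finCompHom129 w h)).prod

theorem finCompHom_partAt575 (O : Finset (HeightOneSpectrum (𝓞 K))) (h : G K)
    (v : HeightOneSpectrum (𝓞 K)) :
    (v ∈ O → finCompHom129 v (partAt575 O h) = finCompHom129 v h) ∧
      (v ∉ O → finCompHom129 v (partAt575 O h) = 1) := by
  have key := list_prod_single575 O.toList O.nodup_toList v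
    (fun w => finCompHom129 v (locFin129 w (finCompHom129 w h)))
    (fun w hw => finCompHom129_locFin129_of_ne w _ (Ne.symm hw))
  have e : finCompHom129 v (partAt575 O h)
      = (O.toList.map fun w => finCompHom129 v (locFin129 w (finCompHom129 w h))).prod := by
    show finCompHom129 v (O.toList.map fun w => locFin129 w (finCompHom129 w h)).prod = _
    rw [map_list_prod, List.map_map]
    rfl
  rw [e]
  refine ⟨fun hv => ?_, fun hv => ?_⟩
  · rw [key.1 (Finset.mem_toList.mpr hv)]
    exact finCompHom129_locFin129 v _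
  · exact key.2 (fun h' => hv (Finset.mem_toList.mp h'))

theorem infCompHom_partAt575 (O : Finset (HeightOneSpectrum (𝓞 K))) (h : G K)
    (w : InfinitePlace K) : infCompHom129 w (partAt575 O h) = 1 := by
  show infCompHom129 w (O.toList.map fun w => locFin129 w (finCompHom129 w h)).prod = 1
  rw [map_list_prod, List.map_map]
  refine List.prod_eq_one fun x hx => ?_
  rw [List.mem_map] at hx
  obtain ⟨v, _, rfl⟩ := hx
  exact infCompHom129_locFin129 v _ w

/-- The components of `g` and of `g⁻¹` at `v` depend only on the image under `finCompHom129`. -/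
theorem finComp_congr575 {v : HeightOneSpectrum (𝓞 K)} {g g' : G K}
    (h : finCompHom129 v g = finCompHom129 v g') :
    finComp v g = finComp v g' ∧ finComp v g⁻¹ = finComp v g'⁻¹ := by
  constructor
  · rw [← coe_finCompHom129, ← coe_finCompHom129, h]
  · rw [← coe_finCompHom129, ← coe_finCompHom129, map_inv, map_inv, h]

theorem inIwahori_congr575 {v : HeightOneSpectrum (𝓞 K)} {g g' : G K}
    (h : finCompHom129 v g = finCompHom129 v g') (hg : T5.InIwahori v g') :
    T5.InIwahori v g := by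
  obtain ⟨e1, e2⟩ := finComp_congr575 h
  obtain ⟨a, b, c⟩ := hg
  refine ⟨?_, ?_, ?_⟩
  · intro i j
    show finComp v g i j ∈ v.adicCompletionIntegers K
    rw [e1]
    exact a i j
  · intro i j
    show finComp v g⁻¹ i j ∈ v.adicCompletionIntegers K
    rw [e2]
    exact b i j
  · show Valued.v (finComp v g 1 0) < 1
    rw [e1]
    exact c

open Classical in
/-- **THE INVARIANCE OF THE FUNCTIONS OF THE BASE LEVEL UNDER `H`.**  A function which is right
invariant under `U(𝔑₀)` and under the Iwahori elements along the orbit is right invariant under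
every element which is trivial at infinity, congruent to `1` modulo `𝔑₀` outside the orbit and
Iwahori along the orbit. -/
theorem right_inv_of_mixed575 {𝔑₀ : Ideal (𝓞 K)} {l : ℕ} {o : ℕ → HeightOneSpectrum (𝓞 K)}
    {ψ : G K → ℂ}
    (hlev : ∀ u : G K, InLevelGroup 𝔑₀ u → ∀ g : G K, ψ (g * u) = ψ g)
    (hiw : IsIwInv l o ψ) {h : G K}
    (h1 : ∀ w : InfinitePlace K, TrivAtInf w h)
    (h2 : ∀ w : HeightOneSpectrum (𝓞 K), (∀ j < l, w ≠ o j) → ∀ i j : Fin 2,
      (finComp w h - 1) i j ∈ idealClosure 𝔑₀ w ∧ (finComp w h⁻¹ - 1) i j ∈ idealClosure 𝔑₀ w)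
    (h3 : ∀ j < l, T5.InIwahori (o j) h) (x : G K) : ψ (x * h) = ψ x := by
  set O : Finset (HeightOneSpectrum (𝓞 K)) := (Finset.range l).image o with hO
  have hmem : ∀ j < l, o j ∈ O := fun j hj =>
    Finset.mem_image.mpr ⟨j, Finset.mem_range.mpr hj, rfl⟩
  have hnot : ∀ v : HeightOneSpectrum (𝓞 K), (∀ j < l, v ≠ o j) → v ∉ O := by
    intro v hv hvO
    obtain ⟨j, hj, rfl⟩ := Finset.mem_image.mp hvO
    exact hv j (Finset.mem_range.mp hj) rfl
  have hnot' : ∀ v : HeightOneSpectrum (𝓞 K), v ∉ O → ∀ j < l, v ≠ o j := by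
    intro v hv j hj hvj
    exact hv (hvj ▸ hmem j hj)
  set i : G K := partAt575 O h with hi
  have hi_inf : ∀ w : InfinitePlace K, TrivAtInf w i := fun w =>
    (trivAtInf_iff129 w i).mpr (infCompHom_partAt575 O h w)
  have hi_iw : ∀ y : G K, ψ (y * i) = ψ y := by
    refine hiw i hi_inf (fun v hv => ?_) (fun j hj => ?_)
    · exact (trivAtFin_iff129 v i).mpr ((finCompHom_partAt575 O h v).2 (hnot v hv))
    · exact inIwahori_congr575 ((finCompHom_partAt575 O h (o j)).1 (hmem j hj)) (h3 j hj)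
  have hu : InLevelGroup 𝔑₀ (i⁻¹ * h) := by
    refine ⟨fun w => H543.trivAtInf_mul543 (H543.trivAtInf_inv543 (hi_inf w)) (h1 w), ?_⟩
    intro v a b
    by_cases hv : v ∈ O
    · have e : finCompHom129 v (i⁻¹ * h) = finCompHom129 v (1 : G K) := by
        rw [map_mul, map_inv, (finCompHom_partAt575 O h v).1 hv, inv_mul_cancel, map_one]
      obtain ⟨e1, e2⟩ := finComp_congr575 e
      rw [e1, e2, inv_one, ← coe_finCompHom129, map_one]
      have z : ((((1 : GL (Fin 2) (v.adicCompletion K)) :
          Matrix (Fin 2) (Fin 2) (v.adicCompletion K)) - 1) a b) = 0 := by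
        rw [Units.val_one, sub_self]
        rfl
      rw [z]
      exact ⟨H543.ic_zero543 𝔑₀ v, H543.ic_zero543 𝔑₀ v⟩
    · have e : finCompHom129 v (i⁻¹ * h) = finCompHom129 v h := by
        rw [map_mul, map_inv, (finCompHom_partAt575 O h v).2 hv, inv_one, one_mul]
      obtain ⟨e1, e2⟩ := finComp_congr575 e
      rw [e1, e2]
      exact h2 v (hnot' v hv) a b
  have hh : x * h = x * i * (i⁻¹ * h) := by
    rw [mul_assoc, mul_inv_cancel_left]
  rw [hh, hlev _ hu, hi_iw]

end Part

/-! ## 2. The leaf -/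

section Leaf

variable (F : Type) [Field F] [NumberField F]

/-- **LEAF PBQ.0.U4 = SWAP-UP-OP over `ℚ`**, conditional on the key identity
`SwapUpSumQC973`. -/
theorem swapUpOpQC_of575 (hsum : PBQ973.SwapUpSumQC973 F) : PBQ973.SwapUpOpQC973 F := by
  intro hsqrt hquad Φe B hB hram g hg 𝔫 h𝔫 μr μc hμr hμc T₀ n n₀ m hexp c hc c₁ Φ₁ F₁ hA fb hfb
    Ω iT iC iT2 iSC iM iB ν iF T T' φ₀ Φ f₀ F0 F1 hdat
  obtain ⟨HU, hne, hHU, hid⟩ := hsum hsqrt hquad Φe B hB hram g hg 𝔫 h𝔫 μr μc hμr hμc T₀ n n₀ m
    hexp c hc c₁ Φ₁ F₁ hA fb hfb Ω iT iC iT2 iSC iM iB ν iF T T' φ₀ Φ f₀ F0 F1 hdat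
  obtain ⟨-, -, -, -, hcont, -, -, -, -, -, hΦ1, -, -⟩ := hdat
  have hnil : ∀ x ∈ ([] : List (Gen F)), x.Out (toBase962_732 B).S' :=
    fun x hx => absurd hx (List.not_mem_nil)
  have htest := hA.up1_test [] hnil
  have hop := hA.up1_op [] hnil
  -- the swapped function is the sum of the right translates of `Φ₁ []`
  have hsw : ∀ y : G F, PBQ973.swapUpFnQ973 (toBase962_732 B) T₀ n₀ ν T' φ₀ Φ y
      = ∑ h ∈ HU, Φ₁ [] (y * h⁻¹) := by
    intro y
    show ∫ ω, pure305 (T' ω) (PBQ973.swUpQ973 (toBase962_732 B) T₀ n₀ (φ₀ ω)) (Φ ω) y ∂ν = _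
    have e1 : (fun ω => pure305 (T' ω) (PBQ973.swUpQ973 (toBase962_732 B) T₀ n₀ (φ₀ ω)) (Φ ω) y)
        = fun ω => ∑ h ∈ HU, pure305 (T' ω) (φ₀ ω) (Φ ω) (y * h⁻¹) := by
      funext ω
      exact (hid ω y).1
    rw [e1, integral_finsetSum]
    · refine Finset.sum_congr rfl fun h _ => ?_
      exact (hΦ1 (y * h⁻¹)).symm
    · intro h _
      have hc' : Continuous (fun ω : Ω => pure305 (T' ω) (φ₀ ω) (Φ ω) (y * h⁻¹)) :=
        hcont.comp (Continuous.prodMk continuous_id continuous_const)
      exact hc'.integrable_of_hasCompactSupport (HasCompactSupport.of_compactSpace _)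
  refine ⟨fun C => (HU.card : ℂ) * c₁ C, ?_, ?_⟩
  · intro ψ C hψ x
    have hBS : BorelSpace (G F) := ⟨rfl⟩
    have hfr : T5.IsFrame (toBase962_732 B).R'.μ (toBase962_732 B).R'.F := hB.frame'.frame
    have hHaar : (toBase962_732 B).R'.μ.IsHaarMeasure := hfr.haar
    have hRI : (toBase962_732 B).R'.μ.IsMulRightInvariant := ⟨fun g => Measure.ext fun A hA => by
      rw [Measure.map_apply (measurable_mul_const g) hA]
      exact hfr.right_inv g A hA⟩
    have hψc : Continuous ψ := hψ.inv.cusp.cont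
    have hinvψ : ∀ h ∈ HU, ∀ z : G F, ψ (z * h) = ψ z := fun h hh z =>
      right_inv_of_mixed575 hψ.inv.cusp.aut.level_inv hψ.inv.iw (hHU h hh).1
        (hHU h hh).2.2.2.1 (hHU h hh).2.2.2.2 z
    show ∫ y, PBQ973.swapUpFnQ973 (toBase962_732 B) T₀ n₀ ν T' φ₀ Φ y * ψ (x * y)
      ∂((toBase962_732 B).R'.μ) = _
    have e2 : (fun y => PBQ973.swapUpFnQ973 (toBase962_732 B) T₀ n₀ ν T' φ₀ Φ y * ψ (x * y))
        = fun y => ∑ h ∈ HU, Φ₁ [] (y * h⁻¹) * ψ (x * y) := by
      funext y
      rw [hsw y, Finset.sum_mul]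
    rw [e2, integral_finsetSum]
    · have hterm : ∀ h ∈ HU,
          ∫ y, Φ₁ [] (y * h⁻¹) * ψ (x * y) ∂((toBase962_732 B).R'.μ) = c₁ C * ψ x := by
        intro h hh
        have e3 := integral_mul_right_eq_self (μ := (toBase962_732 B).R'.μ)
          (fun y : G F => Φ₁ [] (y * h⁻¹) * ψ (x * y)) h
        rw [← e3]
        have e4 : (fun y : G F => (fun y : G F => Φ₁ [] (y * h⁻¹) * ψ (x * y)) (y * h))
            = fun y => Φ₁ [] y * ψ (x * y) := by
          funext y
          show Φ₁ [] (y * h * h⁻¹) * ψ (x * (y * h)) = _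
          rw [mul_inv_cancel_right, ← mul_assoc, hinvψ h hh]
        rw [e4]
        have h5 := hop ψ C hψ x
        have hw : wordEv ([] : List (Gen F)) C = 1 := by
          show (([] : List (Gen F)).map fun g => g.ev C).prod = 1
          rw [List.map_nil, List.prod_nil]
        rw [hw, one_mul] at h5
        exact h5
      rw [Finset.sum_congr rfl hterm, Finset.sum_const, nsmul_eq_mul, mul_assoc]
    · intro h _
      have hc' : Continuous (fun y : G F => Φ₁ [] (y * h⁻¹) * ψ (x * y)) :=
        (htest.cont.comp (continuous_id.mul continuous_const)).mul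
          (hψc.comp (continuous_const.mul continuous_id))
      have hs : HasCompactSupport (fun y : G F => Φ₁ [] (y * h⁻¹)) :=
        htest.supp.comp_homeomorph (Homeomorph.mulRight h⁻¹)
      exact hc'.integrable_of_hasCompactSupport hs.mul_right
  · intro C hC
    exact mul_ne_zero (by exact_mod_cast (Finset.card_pos.mpr hne).ne') (hA.up1_ne C hC)

/-- The statement is the frozen one, verbatim. -/
example : PBQ973.SwapUpSumQC973 F → PBQ973.SwapUpOpQC973 F := swapUpOpQC_of575 F

end Leaf

end Fermat.Agent.LT.T7.H575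

end
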